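import Fermat.Agent.DS.C.Res.CycloM

/-!
# Program DS (S48), package (C), row RES (helper7), part 2: the two-dimensional piece

`dscr_main` = the `Γ₁(M)` analogue of G/Res `gar_main`: `κ` a finite field of characteristic `p`,
`ψ` a Dirichlet character modulo `M` with values in `κ`, `W ≠ 0` a finite dimensional `κ`-space
with a `κ`-linear action `ρ` of `G_ℚ` of finite level, unramified outside `M p`, such that every
Frobenius element `σ` at every `ℓ ∤ M p` satisfies `ρ(σ)² - a_ℓ ρ(σ) + ℓ ψ(ℓ) = 0`.  Then for every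
`ι : κ →+* k` there is a `ResidualGaloisRep k` unramified outside `M p` with
`charpoly (R.ρ σ) = X² - ι(a_ℓ) X + ι(ℓ ψ(ℓ))` on those Frobenius elements, and determinant
`ι ∘ (χ_p · ψ_Gal)`.
-/

set_option autoImplicit false
set_option linter.unusedSectionVars false
set_option linter.unusedVariables false
set_option linter.style.haveILetI false

noncomputable section

namespace Fermat.Agent.DS

open Polynomial ExtCitation Fermat.Agent.G
open scoped Pointwise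

local notation "Qb" => AlgebraicClosure ℚ
local notation "GQ" => (AlgebraicClosure ℚ ≃ₐ[ℚ] AlgebraicClosure ℚ)

local instance dscrm_isAlgebraic : Algebra.IsAlgebraic ℚ (AlgebraicClosure ℚ) :=
  AlgebraicClosure.isAlgebraic ℚ

section Quad

variable {κ : Type} [Field κ] (p : ℕ) [Fact p.Prime] [CharP κ p] (M : ℕ) [NeZero M]

/-- `(ρ, χ_p, χ_M)` factors through a finite level -/
theorem dscr_exists_level {T : Type} [Monoid T] (ρ : GQ →* T)
    (hρ : GaloisFactorsThroughFiniteLevel ρ) :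
    ∃ E : IntermediateField ℚ Qb, FiniteDimensional ℚ E ∧
      ∀ σ : GQ, (∀ x ∈ E, σ x = x) → ρ σ = 1 ∧ cycloChar p σ = 1 ∧ dscrChiM M σ = 1 := by
  obtain ⟨E, hEfd, hE⟩ := gar_exists_level p ρ hρ
  haveI := hEfd
  haveI hZfd : FiniteDimensional ℚ (IntermediateField.adjoin ℚ {dscrZeta M}) :=
    IntermediateField.adjoin.finiteDimensional (Algebra.IsIntegral.isIntegral _)
  refine ⟨E ⊔ IntermediateField.adjoin ℚ {dscrZeta M}, IntermediateField.finiteDimensional_sup E _,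
    fun σ hσ => ?_⟩
  obtain ⟨h1, h2⟩ := hE σ fun x hx => hσ x
    ((le_sup_left : E ≤ E ⊔ IntermediateField.adjoin ℚ {dscrZeta M}) hx)
  refine ⟨h1, h2, dscrChiM_eq_one_of_fix M σ (hσ _ ?_)⟩
  exact (le_sup_right : IntermediateField.adjoin ℚ {dscrZeta M} ≤
    E ⊔ IntermediateField.adjoin ℚ {dscrZeta M}) (IntermediateField.mem_adjoin_simple_self ℚ _)

/-- **every** `g ∈ G_ℚ` satisfies `ρ(g)² - t ρ(g) + (χ_p ψ_Gal)(g) = 0` for some `t ∈ κ` -/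
theorem dscr_exists_quadratic (ψ : DirichletCharacter κ M) {W : Type} [AddCommGroup W]
    [Module κ W] (ρ : GQ →* Module.End κ W) (hρ : GaloisFactorsThroughFiniteLevel ρ) (a : ℕ → κ)
    (hfrob : ∀ ℓ : ℕ, ℓ.Prime → ¬ ℓ ∣ M * p → ∀ A : ValuationSubring Qb, A.LiesOverPrime ℓ →
      ∀ σ : GQ, A.IsFrobeniusAt σ ℓ →
        ρ σ * ρ σ - a ℓ • ρ σ + ((ℓ : κ) * ψ (ℓ : ZMod M)) • (1 : Module.End κ W) = 0) (g : GQ) :
    ∃ t : κ, ρ g * ρ g - t • ρ g + ((dscrDet M ψ p g : κˣ) : κ) • (1 : Module.End κ W) = 0 := by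
  classical
  have hp : p.Prime := Fact.out
  have hM : M ≠ 0 := NeZero.ne M
  obtain ⟨E, hEfd, hE⟩ := dscr_exists_level p M ρ hρ
  haveI := hEfd
  set f : GQ →* (Module.End κ W)ˣ × ((ZMod p)ˣ × (ZMod M)ˣ) :=
    (ρ.toHomUnits).prod ((cycloChar p).prod (dscrChiM M)) with hf
  have hker : E.fixingSubgroup ≤ f.ker := by
    intro σ hσ
    obtain ⟨h1, h2, h3⟩ := hE σ ((IntermediateField.mem_fixingSubgroup_iff _ _).1 hσ)
    rw [MonoidHom.mem_ker, hf, MonoidHom.prod_apply, MonoidHom.prod_apply, Prod.mk_eq_one,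
      Prod.mk_eq_one]
    refine ⟨?_, h2, h3⟩
    apply Units.ext
    rw [MonoidHom.coe_toHomUnits, h1, Units.val_one]
  have hopen : IsOpen (f.ker : Set GQ) :=
    Subgroup.isOpen_mono hker (IntermediateField.fixingSubgroup_isOpen E)
  obtain ⟨q, hq, hqB, a', ha', ⟨A, hA, φ, hφ, hfφ⟩, -⟩ :=
    Fermat.Agent.S56.fd_exists_isFrobeniusAt_hom f hopen g (M * p).primeFactors
  have hqMp : ¬ q ∣ M * p := fun hd =>
    hqB (Nat.mem_primeFactors.2 ⟨hq, hd, mul_ne_zero hM hp.ne_zero⟩)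
  have hqp : q ≠ p := fun h => hqMp (h ▸ dvd_mul_left _ _)
  have hqM : ¬ q ∣ M := fun h => hqMp (h.mul_right p)
  obtain ⟨b, hb⟩ := exists_pow_eq_self_of_coprime ha'
  have hfg : f φ ^ b = f g := by rw [hfφ, hb]
  have h1 : ρ φ ^ b = ρ g := by
    have h := congrArg (fun x : (Module.End κ W)ˣ × ((ZMod p)ˣ × (ZMod M)ˣ) =>
      ((x.1 : (Module.End κ W)ˣ) : Module.End κ W)) hfg
    simpa [hf] using h
  have h2 : cycloChar p φ ^ b = cycloChar p g := by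
    have h := congrArg (fun x : (Module.End κ W)ˣ × ((ZMod p)ˣ × (ZMod M)ˣ) => x.2.1) hfg
    simpa [hf] using h
  have h2' : dscrChiM M φ ^ b = dscrChiM M g := by
    have h := congrArg (fun x : (Module.End κ W)ˣ × ((ZMod p)ˣ × (ZMod M)ˣ) => x.2.2) hfg
    simpa [hf] using h
  obtain ⟨t', ht'⟩ := gar_pow_quadratic (ρ φ) (a q) ((q : κ) * ψ (q : ZMod M))
    (hfrob q hq hqMp A hA φ hφ) b
  refine ⟨t', ?_⟩
  have h3 : ((dscrDet M ψ p g : κˣ) : κ) = ((q : κ) * ψ (q : ZMod M)) ^ b := by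
    have h4 : dscrDet M ψ p g = dscrDet M ψ p φ ^ b := by
      rw [dscrDet, MonoidHom.mul_apply, MonoidHom.mul_apply, garChi, dscrPsiGal,
        MonoidHom.comp_apply, MonoidHom.comp_apply, MonoidHom.comp_apply, MonoidHom.comp_apply,
        ← h2, ← h2', map_pow, map_pow, mul_pow]
    rw [h4, Units.val_pow_eq_pow_val, dscrDet_frob M ψ p hq hqp hqM A hA φ hφ]
  rw [← h1, h3]
  exact ht'

end Quad

section Main

variable {κ : Type} [Field κ] (p : ℕ) [Fact p.Prime] [CharP κ p] (M : ℕ) [NeZero M]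

/-- **RES main theorem** (the `Γ₁(M)` analogue of `gar_main`), with the determinant. -/
theorem dscr_main_det [Finite κ] (ψ : DirichletCharacter κ M) {W : Type} [AddCommGroup W]
    [Module κ W] [Module.Finite κ W] [Nontrivial W] (ρ : GQ →* Module.End κ W)
    (hρ : GaloisFactorsThroughFiniteLevel ρ) (a : ℕ → κ)
    (hunr : ∀ ℓ : ℕ, ℓ.Prime → ¬ ℓ ∣ M * p → ∀ A : ValuationSubring Qb, A.LiesOverPrime ℓ →
      ∀ σ ∈ A.inertiaSubgroupIn ℚ, ρ σ = 1)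
    (hfrob : ∀ ℓ : ℕ, ℓ.Prime → ¬ ℓ ∣ M * p → ∀ A : ValuationSubring Qb, A.LiesOverPrime ℓ →
      ∀ σ : GQ, A.IsFrobeniusAt σ ℓ →
        ρ σ * ρ σ - a ℓ • ρ σ + ((ℓ : κ) * ψ (ℓ : ZMod M)) • (1 : Module.End κ W) = 0)
    {k : Type} [Field k] (ι : κ →+* k) :
    ∃ R : ResidualGaloisRep k,
      (∀ ℓ : ℕ, ℓ.Prime → ¬ ℓ ∣ M * p → ∀ A : ValuationSubring Qb, A.LiesOverPrime ℓ →
        ∀ σ : GQ, A.IsFrobeniusAt σ ℓ →
          LinearMap.charpoly (R.ρ σ) =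
            X ^ 2 - C (ι (a ℓ)) * X + C (ι ((ℓ : κ) * ψ (ℓ : ZMod M)))) ∧
      (∀ ℓ : ℕ, ℓ.Prime → ¬ ℓ ∣ M * p → R.IsUnramifiedAt ℓ) ∧
      ∀ σ : GQ, LinearMap.det (R.ρ σ) = ι ((dscrDet M ψ p σ : κˣ) : κ) := by
  classical
  have hp : p.Prime := Fact.out
  -- every element satisfies a quadratic relation
  have hq := dscr_exists_quadratic p M ψ ρ hρ a hfrob
  choose t ht using hq
  obtain ⟨ρ', hchar, hker⟩ := gcl_main ρ t (dscrDet M ψ p) ht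
  -- finite level of `ρ'`
  have hlev : GaloisFactorsThroughFiniteLevel ρ' := by
    obtain ⟨E, hEfd, hE⟩ := dscr_exists_level p M ρ hρ
    refine ⟨E, hEfd, fun σ hσ => ?_⟩
    obtain ⟨h1, h2, h3⟩ := hE σ hσ
    exact hker σ h1 (by
      rw [dscrDet, MonoidHom.mul_apply, garChi, dscrPsiGal, MonoidHom.comp_apply,
        MonoidHom.comp_apply, h2, h3, map_one, map_one, one_mul])
  set R₀ : ResidualGaloisRep κ := garOfMatrix ρ' hlev with hR₀
  have hR₀char : ∀ σ : GQ, LinearMap.charpoly (R₀.ρ σ) =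
      X ^ 2 - C (t σ) * X + C ((dscrDet M ψ p σ : κˣ) : κ) := by
    intro σ
    rw [hR₀, garOfMatrix_charpoly, hchar σ]
  refine ⟨R₀.baseChangeAlong ι, ?_, ?_, ?_⟩
  · intro ℓ hℓ hℓMp A hA σ hσ
    have hℓp : ℓ ≠ p := fun h => hℓMp (h ▸ dvd_mul_left _ _)
    have hℓM : ¬ ℓ ∣ M := fun h => hℓMp (h.mul_right p)
    -- `t σ = a ℓ`
    have h1 := ht σ
    have h2 := hfrob ℓ hℓ hℓMp A hA σ hσ
    rw [dscrDet_frob M ψ p hℓ hℓp hℓM A hA σ hσ] at h1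
    have h3 : (t σ - a ℓ) • ρ σ = 0 := by
      rw [sub_smul]
      have h4 : ρ σ * ρ σ - a ℓ • ρ σ + ((ℓ : κ) * ψ (ℓ : ZMod M)) • (1 : Module.End κ W) -
          (ρ σ * ρ σ - t σ • ρ σ + ((ℓ : κ) * ψ (ℓ : ZMod M)) • (1 : Module.End κ W)) = 0 := by
        rw [h1, h2, sub_zero]
      rw [← h4]
      abel
    have h5 : t σ = a ℓ := by
      by_contra hne
      have h6 : ρ σ = 0 := by
        have := congrArg (fun x => (t σ - a ℓ)⁻¹ • x) h3
        simpa [smul_smul, inv_mul_cancel₀ (sub_ne_zero.2 hne)] using this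
      have h7 : (1 : Module.End κ W) = 0 := by
        rw [← map_one ρ, ← mul_inv_cancel σ, map_mul, h6, zero_mul]
      obtain ⟨w, hw⟩ := exists_ne (0 : W)
      exact hw (by simpa using LinearMap.congr_fun h7 w)
    rw [gar_baseChangeAlong_charpoly, hR₀char σ, dscrDet_frob M ψ p hℓ hℓp hℓM A hA σ hσ, h5]
    simp
  · intro ℓ hℓ hℓMp A hA σ hσ
    have hℓp : ℓ ≠ p := fun h => hℓMp (h ▸ dvd_mul_left _ _)
    have hℓM : ¬ ℓ ∣ M := fun h => hℓMp (h.mul_right p)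
    apply gar_baseChangeAlong_eq_one
    exact garOfMatrix_eq_one ρ' hlev σ (hker σ (hunr ℓ hℓ hℓMp A hA σ hσ)
      (dscrDet_inertia M ψ p hℓ hℓp hℓM A hA σ hσ))
  · intro σ
    rw [gar_baseChangeAlong_det, gar_det_of_charpoly R₀.finrank_eq (R₀.ρ σ) _ _ (hR₀char σ)]

/-- **RES** (the statement consumed by the assembly of `DsBB1`). -/
theorem dscr_main [Finite κ] (ψ : DirichletCharacter κ M) {W : Type} [AddCommGroup W]
    [Module κ W] [Module.Finite κ W] [Nontrivial W] (ρ : GQ →* Module.End κ W)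
    (hρ : GaloisFactorsThroughFiniteLevel ρ) (a : ℕ → κ)
    (hunr : ∀ ℓ : ℕ, ℓ.Prime → ¬ ℓ ∣ M * p → ∀ A : ValuationSubring Qb, A.LiesOverPrime ℓ →
      ∀ σ ∈ A.inertiaSubgroupIn ℚ, ρ σ = 1)
    (hfrob : ∀ ℓ : ℕ, ℓ.Prime → ¬ ℓ ∣ M * p → ∀ A : ValuationSubring Qb, A.LiesOverPrime ℓ →
      ∀ σ : GQ, A.IsFrobeniusAt σ ℓ →
        ρ σ * ρ σ - a ℓ • ρ σ + ((ℓ : κ) * ψ (ℓ : ZMod M)) • (1 : Module.End κ W) = 0)
    {k : Type} [Field k] (ι : κ →+* k) :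
    ∃ R : ResidualGaloisRep k,
      (∀ ℓ : ℕ, ℓ.Prime → ¬ ℓ ∣ M * p → ∀ A : ValuationSubring Qb, A.LiesOverPrime ℓ →
        ∀ σ : GQ, A.IsFrobeniusAt σ ℓ →
          LinearMap.charpoly (R.ρ σ) =
            X ^ 2 - C (ι (a ℓ)) * X + C (ι ((ℓ : κ) * ψ (ℓ : ZMod M)))) ∧
      (∀ ℓ : ℕ, ℓ.Prime → ¬ ℓ ∣ M * p → R.IsUnramifiedAt ℓ) := by
  obtain ⟨R, h1, h2, -⟩ := dscr_main_det p M ψ ρ hρ a hunr hfrob ι
  exact ⟨R, h1, h2⟩

/-- the twist `σ ↦ ψ_Gal(σ) • ρ(σ)` of a representation by the Galois character of `ψ` -/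
def dscrTwist (ψ : DirichletCharacter κ M) {W : Type} [AddCommGroup W] [Module κ W]
    (ρ : GQ →* Module.End κ W) : GQ →* Module.End κ W where
  toFun σ := ((dscrPsiGal M ψ σ : κˣ) : κ) • ρ σ
  map_one' := by rw [map_one, map_one, Units.val_one, one_smul]
  map_mul' σ τ := by
    rw [map_mul, map_mul, Units.val_mul, smul_mul_smul_comm]

theorem dscrTwist_apply (ψ : DirichletCharacter κ M) {W : Type} [AddCommGroup W] [Module κ W]
    (ρ : GQ →* Module.End κ W) (σ : GQ) :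
    dscrTwist M ψ ρ σ = ((dscrPsiGal M ψ σ : κˣ) : κ) • ρ σ := rfl

theorem dscrTwist_level (ψ : DirichletCharacter κ M) {W : Type} [AddCommGroup W] [Module κ W]
    (ρ : GQ →* Module.End κ W) (hρ : GaloisFactorsThroughFiniteLevel ρ) :
    GaloisFactorsThroughFiniteLevel (dscrTwist M ψ ρ) := by
  obtain ⟨L, hLfd, hL⟩ := hρ
  haveI := hLfd
  haveI hZfd : FiniteDimensional ℚ (IntermediateField.adjoin ℚ {dscrZeta M}) :=
    IntermediateField.adjoin.finiteDimensional (Algebra.IsIntegral.isIntegral _)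
  refine ⟨L ⊔ IntermediateField.adjoin ℚ {dscrZeta M}, IntermediateField.finiteDimensional_sup L _,
    fun σ hσ => ?_⟩
  have h1 : ρ σ = 1 := hL σ fun x hx => hσ x
    ((le_sup_left : L ≤ L ⊔ IntermediateField.adjoin ℚ {dscrZeta M}) hx)
  have h2 : dscrPsiGal M ψ σ = 1 := dscrPsiGal_fix M ψ σ (hσ _
    ((le_sup_right : IntermediateField.adjoin ℚ {dscrZeta M} ≤
      L ⊔ IntermediateField.adjoin ℚ {dscrZeta M}) (IntermediateField.mem_adjoin_simple_self ℚ _)))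
  rw [dscrTwist_apply, h1, h2, Units.val_one, one_smul]

/-- **RES, twisted form**: the hypothesis is the Eichler–Shimura relation with `⟨ℓ⟩⁻¹`, i.e.
`ρ(σ)² - a_ℓ ψ(ℓ)⁻¹ ρ(σ) + ℓ ψ(ℓ)⁻¹ = 0`; same conclusion as `dscr_main`
(apply `dscr_main` to the twist `ψ_Gal ⊗ ρ`). -/
theorem dscr_main_tw [Finite κ] (ψ : DirichletCharacter κ M) {W : Type} [AddCommGroup W]
    [Module κ W] [Module.Finite κ W] [Nontrivial W] (ρ : GQ →* Module.End κ W)
    (hρ : GaloisFactorsThroughFiniteLevel ρ) (a : ℕ → κ)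
    (hunr : ∀ ℓ : ℕ, ℓ.Prime → ¬ ℓ ∣ M * p → ∀ A : ValuationSubring Qb, A.LiesOverPrime ℓ →
      ∀ σ ∈ A.inertiaSubgroupIn ℚ, ρ σ = 1)
    (hfrob : ∀ ℓ : ℕ, ℓ.Prime → ¬ ℓ ∣ M * p → ∀ A : ValuationSubring Qb, A.LiesOverPrime ℓ →
      ∀ σ : GQ, A.IsFrobeniusAt σ ℓ →
        ρ σ * ρ σ - (a ℓ * (ψ (ℓ : ZMod M))⁻¹) • ρ σ
          + ((ℓ : κ) * (ψ (ℓ : ZMod M))⁻¹) • (1 : Module.End κ W) = 0)
    {k : Type} [Field k] (ι : κ →+* k) :
    ∃ R : ResidualGaloisRep k,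
      (∀ ℓ : ℕ, ℓ.Prime → ¬ ℓ ∣ M * p → ∀ A : ValuationSubring Qb, A.LiesOverPrime ℓ →
        ∀ σ : GQ, A.IsFrobeniusAt σ ℓ →
          LinearMap.charpoly (R.ρ σ) =
            X ^ 2 - C (ι (a ℓ)) * X + C (ι ((ℓ : κ) * ψ (ℓ : ZMod M)))) ∧
      (∀ ℓ : ℕ, ℓ.Prime → ¬ ℓ ∣ M * p → R.IsUnramifiedAt ℓ) := by
  refine dscr_main p M ψ (dscrTwist M ψ ρ) (dscrTwist_level M ψ ρ hρ) a ?_ ?_ ι
  · intro ℓ hℓ hℓMp A hA σ hσ
    have hℓM : ¬ ℓ ∣ M := fun h => hℓMp (h.mul_right p)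
    rw [dscrTwist_apply, hunr ℓ hℓ hℓMp A hA σ hσ, dscrPsiGal_inertia M ψ hℓ hℓM A hA σ hσ,
      Units.val_one, one_smul]
  · intro ℓ hℓ hℓMp A hA σ hσ
    have hℓM : ¬ ℓ ∣ M := fun h => hℓMp (h.mul_right p)
    have h1 := hfrob ℓ hℓ hℓMp A hA σ hσ
    have hψ : ((dscrPsiGal M ψ σ : κˣ) : κ) = ψ (ℓ : ZMod M) :=
      dscrPsiGal_frob M ψ hℓ hℓM A hA σ hσ
    have hψ0 : ψ (ℓ : ZMod M) ≠ 0 := by
      rw [← hψ]
      exact Units.ne_zero _
    rw [dscrTwist_apply, hψ]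
    set c : κ := ψ (ℓ : ZMod M) with hc
    have h2 : (c • ρ σ) * (c • ρ σ) - a ℓ • (c • ρ σ) + ((ℓ : κ) * c) • (1 : Module.End κ W)
        = (c * c) • (ρ σ * ρ σ - (a ℓ * c⁻¹) • ρ σ + ((ℓ : κ) * c⁻¹) • (1 : Module.End κ W)) := by
      have e1 : a ℓ * c = c * c * (a ℓ * c⁻¹) := by field_simp
      have e2 : (ℓ : κ) * c = c * c * ((ℓ : κ) * c⁻¹) := by field_simp
      rw [smul_mul_smul_comm, smul_add, smul_sub, smul_smul, smul_smul, smul_smul, ← e1, ← e2]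
    rw [h2, h1, smul_zero]

end Main

end Fermat.Agent.DS
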