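import Fermat.Agent.G.Res

/-!
# Program DS (S48), package (C), row RES (helper7), part 1: the mod `M` cyclotomic character

`dscrChiM M : G_ℚ →* (ZMod M)ˣ` for an arbitrary modulus `M ≠ 0` (via `IsPrimitiveRoot.autToPow`),
its value `q mod M` on Frobenius elements at primes `q ∤ M`, its triviality on inertia at `q ∤ M`,
finite level; the Galois character `dscrPsiGal ψ` of a Dirichlet character `ψ` with values in a
field `κ`, and the determinant character `dscrDet p ψ = χ_p · ψ_Gal`.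
-/

set_option autoImplicit false
set_option linter.unusedSectionVars false
set_option linter.unusedVariables false
set_option linter.style.haveILetI false

noncomputable section

namespace Fermat.Agent.DS

open Polynomial ExtCitation Fermat.Agent.G
open scoped Pointwise

local notation "Qb" => AlgebraicClosure ℚ
local notation "GQ" => (AlgebraicClosure ℚ ≃ₐ[ℚ] AlgebraicClosure ℚ)

local instance dscr_isAlgebraic : Algebra.IsAlgebraic ℚ (AlgebraicClosure ℚ) :=
  AlgebraicClosure.isAlgebraic ℚ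

/-! ### roots of unity modulo a place prime to their order -/

/-- two `M`-th roots of unity which are congruent modulo a place over `q ∤ M` are equal -/
theorem dscr_root_eq_of_sub_mem {M : ℕ} (hM : M ≠ 0) {q : ℕ} (hq : q.Prime) (hqM : ¬ q ∣ M)
    (A : ValuationSubring Qb) (hA : A.LiesOverPrime q) {ζ ξ : Qb} (hζ : ζ ^ M = 1)
    (hξ : ξ ^ M = 1) (h : ξ - ζ ∈ A.nonunits) : ξ = ζ := by
  by_contra hne
  have hζ0 : ζ ≠ 0 := fun h => by
    rw [h, zero_pow hM] at hζ
    exact zero_ne_one hζ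
  have hvζ : A.valuation ζ = 1 := gar_valuation_eq_one A hM hζ
  have hsub : A.valuation (ξ - ζ) < 1 := (ValuationSubring.mem_nonunits_iff (A := A)).1 h
  set η : Qb := ξ / ζ with hη
  have hηM : η ^ M = 1 := by rw [hη, div_pow, hξ, hζ, div_one]
  have hη1 : η ≠ 1 := fun h => hne ((div_eq_one_iff_eq hζ0).1 h)
  have hvη : A.valuation (1 - η) < 1 := by
    have h2 : A.valuation (1 - η) = A.valuation (ξ - ζ) := by
      rw [Valuation.map_sub_swap, hη, show ξ / ζ - 1 = (ξ - ζ) / ζ by field_simp, map_div₀, hvζ,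
        div_one]
    rwa [h2]
  -- the exact order `d` of `η` divides `M`, `d ≠ 1`; pick a prime `r ∣ d`
  have hd : orderOf η ∣ M := orderOf_dvd_of_pow_eq_one hηM
  have hd1 : orderOf η ≠ 1 := fun h => hη1 (orderOf_eq_one_iff.1 h)
  obtain ⟨r, hr, hrd⟩ := Nat.exists_prime_and_dvd hd1
  obtain ⟨m, hm⟩ := hrd
  have hd0 : 0 < orderOf η := Nat.pos_of_ne_zero fun h0 => hM (by
    rw [h0] at hd; exact Nat.eq_zero_of_zero_dvd hd)
  have hm0 : 0 < m := Nat.pos_of_ne_zero fun h0 => by rw [h0, mul_zero] at hm; omega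
  have hprim : IsPrimitiveRoot (η ^ m) r := by
    have h1 : IsPrimitiveRoot η (r * m) := hm ▸ IsPrimitiveRoot.orderOf η
    have := h1.pow (n := r * m) (Nat.mul_pos hr.pos hm0) (a := m) (b := r) (by ring)
    exact this
  haveI : Fact r.Prime := ⟨hr⟩
  have hqr : q ≠ r := fun h => hqM (h ▸ (Dvd.intro m hm.symm).trans hd)
  have h1 := gar_valuation_one_sub hq hqr A hA hprim
  -- `1 - η ^ m = (1 - η) * ∑ η ^ i`
  have h2 : 1 - η ^ m = (1 - η) * ∑ i ∈ Finset.range m, η ^ i := by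
    have := (Commute.one_left η).mul_geom_sum₂ m
    rw [mul_neg_geom_sum]
  have hvη1 : A.valuation η = 1 := gar_valuation_eq_one A hM hηM
  have h3 : A.valuation (∑ i ∈ Finset.range m, η ^ i) ≤ 1 := by
    apply Valuation.map_sum_le
    intro i _
    rw [map_pow, hvη1, one_pow]
  rw [h2, map_mul] at h1
  have h4 : A.valuation (1 - η) * A.valuation (∑ i ∈ Finset.range m, η ^ i) < 1 :=
    calc _ ≤ A.valuation (1 - η) * 1 := by gcongr
      _ < 1 := by simpa using hvη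
  rw [h1] at h4
  exact lt_irrefl _ h4

/-! ### the mod `M` cyclotomic character -/

section ChiM

variable (M : ℕ) [NeZero M]

theorem dscr_exists_primitiveRoot : ∃ ζ : Qb, IsPrimitiveRoot ζ M := by
  have : NeZero (M : Qb) := ⟨Nat.cast_ne_zero.mpr (NeZero.ne M)⟩
  exact HasEnoughRootsOfUnity.exists_primitiveRoot Qb M

/-- a fixed primitive `M`-th root of unity in `ℚ̄` -/
def dscrZeta : Qb := Classical.choose (dscr_exists_primitiveRoot M)

theorem dscrZeta_spec : IsPrimitiveRoot (dscrZeta M) M :=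
  Classical.choose_spec (dscr_exists_primitiveRoot M)

/-- the mod `M` cyclotomic character of `G_ℚ` -/
def dscrChiM : GQ →* (ZMod M)ˣ := (dscrZeta_spec M).autToPow ℚ

theorem dscrChiM_spec (σ : GQ) :
    dscrZeta M ^ ((dscrChiM M σ : (ZMod M)ˣ) : ZMod M).val = σ (dscrZeta M) :=
  (dscrZeta_spec M).autToPow_spec ℚ σ

/-- `σ ζ = ζ ^ k` forces `χ_M(σ) = k`. -/
theorem dscrChiM_eq_of_pow (σ : GQ) (k : ℕ) (h : σ (dscrZeta M) = dscrZeta M ^ k) :
    ((dscrChiM M σ : (ZMod M)ˣ) : ZMod M) = (k : ZMod M) := by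
  have h1 := dscrChiM_spec M σ
  rw [h] at h1
  have hζ := dscrZeta_spec M
  have hM : 0 < M := Nat.pos_of_ne_zero (NeZero.ne M)
  set a : ℕ := ((dscrChiM M σ : (ZMod M)ˣ) : ZMod M).val with ha
  have h2 : dscrZeta M ^ (a % M) = dscrZeta M ^ (k % M) := by
    have h3 : ∀ b : ℕ, dscrZeta M ^ (b % M) = dscrZeta M ^ b := by
      intro b
      conv_rhs => rw [← Nat.mod_add_div b M, pow_add, pow_mul, hζ.pow_eq_one, one_pow, mul_one]
    rw [h3, h3, h1]
  have h4 := hζ.pow_inj (Nat.mod_lt a hM) (Nat.mod_lt k hM) h2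
  have h5 : ((a : ℕ) : ZMod M) = (k : ZMod M) := (ZMod.natCast_eq_natCast_iff _ _ _).mpr h4
  rwa [ha, ZMod.natCast_val, ZMod.cast_id'] at h5

theorem dscrChiM_eq_one_of_fix (σ : GQ) (h : σ (dscrZeta M) = dscrZeta M) : dscrChiM M σ = 1 := by
  apply Units.ext
  have := dscrChiM_eq_of_pow M σ 1 (by rw [pow_one, h])
  rw [this, Nat.cast_one, Units.val_one]

/-- the mod `M` cyclotomic character of a Frobenius element at `q ∤ M` is `q` -/
theorem dscrChiM_frob {q : ℕ} (hq : q.Prime) (hqM : ¬ q ∣ M) (A : ValuationSubring Qb)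
    (hA : A.LiesOverPrime q) (φ : GQ) (hφ : A.IsFrobeniusAt φ q) :
    ((dscrChiM M φ : (ZMod M)ˣ) : ZMod M) = (q : ZMod M) := by
  have hM : M ≠ 0 := NeZero.ne M
  have hζ := dscrZeta_spec M
  have hvζ : A.valuation (dscrZeta M) = 1 := gar_valuation_eq_one A hM hζ.pow_eq_one
  have hζA : dscrZeta M ∈ A := (A.valuation_le_one_iff _).1 hvζ.le
  have h1 := gar_frob_congr A φ q hφ _ hζA
  have h2 : φ (dscrZeta M) = dscrZeta M ^ q :=
    dscr_root_eq_of_sub_mem hM hq hqM A hA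
      (by rw [← pow_mul, mul_comm, pow_mul, hζ.pow_eq_one, one_pow])
      (by rw [← map_pow, hζ.pow_eq_one, map_one]) h1
  exact dscrChiM_eq_of_pow M φ q h2

/-- the mod `M` cyclotomic character is trivial on inertia at `q ∤ M` -/
theorem dscrChiM_inertia {q : ℕ} (hq : q.Prime) (hqM : ¬ q ∣ M) (A : ValuationSubring Qb)
    (hA : A.LiesOverPrime q) (τ : GQ) (hτ : τ ∈ A.inertiaSubgroupIn ℚ) : dscrChiM M τ = 1 := by
  have hM : M ≠ 0 := NeZero.ne M
  have hζ := dscrZeta_spec M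
  have hvζ : A.valuation (dscrZeta M) = 1 := gar_valuation_eq_one A hM hζ.pow_eq_one
  have hζA : dscrZeta M ∈ A := (A.valuation_le_one_iff _).1 hvζ.le
  have hin := Fermat.Agent.S05.isInertial_of_mem_inertiaSubgroupIn A τ hτ
  have h2 : τ (dscrZeta M) = dscrZeta M :=
    dscr_root_eq_of_sub_mem hM hq hqM A hA hζ.pow_eq_one
      (by rw [← map_pow, hζ.pow_eq_one, map_one]) (hin.sub_mem _ hζA)
  exact dscrChiM_eq_one_of_fix M τ h2

theorem dscrChiM_level : GaloisFactorsThroughFiniteLevel (dscrChiM M) :=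
  ⟨IntermediateField.adjoin ℚ {dscrZeta M},
    IntermediateField.adjoin.finiteDimensional (Algebra.IsIntegral.isIntegral _),
    fun σ hσ => dscrChiM_eq_one_of_fix M σ
      (hσ _ (IntermediateField.mem_adjoin_simple_self ℚ _))⟩

end ChiM

/-! ### the Galois character of a Dirichlet character, and the determinant character -/

section PsiGal

variable {κ : Type} [Field κ] (M : ℕ) [NeZero M] (ψ : DirichletCharacter κ M)

/-- the Galois character `ψ ∘ χ_M` of a Dirichlet character `ψ` modulo `M` -/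
def dscrPsiGal : GQ →* κˣ := (MulChar.toUnitHom ψ).comp (dscrChiM M)

theorem dscrPsiGal_coe (σ : GQ) :
    ((dscrPsiGal M ψ σ : κˣ) : κ) = ψ ((dscrChiM M σ : (ZMod M)ˣ) : ZMod M) :=
  MulChar.coe_toUnitHom ψ _

theorem dscrPsiGal_frob {q : ℕ} (hq : q.Prime) (hqM : ¬ q ∣ M) (A : ValuationSubring Qb)
    (hA : A.LiesOverPrime q) (φ : GQ) (hφ : A.IsFrobeniusAt φ q) :
    ((dscrPsiGal M ψ φ : κˣ) : κ) = ψ (q : ZMod M) := by
  rw [dscrPsiGal_coe, dscrChiM_frob M hq hqM A hA φ hφ]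

theorem dscrPsiGal_inertia {q : ℕ} (hq : q.Prime) (hqM : ¬ q ∣ M) (A : ValuationSubring Qb)
    (hA : A.LiesOverPrime q) (τ : GQ) (hτ : τ ∈ A.inertiaSubgroupIn ℚ) :
    dscrPsiGal M ψ τ = 1 := by
  rw [dscrPsiGal, MonoidHom.comp_apply, dscrChiM_inertia M hq hqM A hA τ hτ, map_one]

theorem dscrPsiGal_fix (σ : GQ) (h : σ (dscrZeta M) = dscrZeta M) : dscrPsiGal M ψ σ = 1 := by
  rw [dscrPsiGal, MonoidHom.comp_apply, dscrChiM_eq_one_of_fix M σ h, map_one]

theorem dscrPsiGal_level : GaloisFactorsThroughFiniteLevel (dscrPsiGal M ψ) := by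
  obtain ⟨L, hL, h1⟩ := dscrChiM_level M
  exact ⟨L, hL, fun σ hσ => by rw [dscrPsiGal, MonoidHom.comp_apply, h1 σ hσ, map_one]⟩

variable (p : ℕ) [Fact p.Prime] [CharP κ p]

/-- the determinant character `χ_p · ψ_Gal` -/
def dscrDet : GQ →* κˣ := garChi (κ := κ) p * dscrPsiGal M ψ

theorem dscrDet_coe (σ : GQ) :
    ((dscrDet M ψ p σ : κˣ) : κ) =
      ((garChi (κ := κ) p σ : κˣ) : κ) * ((dscrPsiGal M ψ σ : κˣ) : κ) := by
  rw [dscrDet, MonoidHom.mul_apply, Units.val_mul]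

theorem dscrDet_frob {q : ℕ} (hq : q.Prime) (hqp : q ≠ p) (hqM : ¬ q ∣ M)
    (A : ValuationSubring Qb) (hA : A.LiesOverPrime q) (φ : GQ) (hφ : A.IsFrobeniusAt φ q) :
    ((dscrDet M ψ p φ : κˣ) : κ) = (q : κ) * ψ (q : ZMod M) := by
  rw [dscrDet_coe, garChi_frob p hq hqp A hA φ hφ, dscrPsiGal_frob M ψ hq hqM A hA φ hφ]

theorem dscrDet_inertia {q : ℕ} (hq : q.Prime) (hqp : q ≠ p) (hqM : ¬ q ∣ M)
    (A : ValuationSubring Qb) (hA : A.LiesOverPrime q) (τ : GQ)
    (hτ : τ ∈ A.inertiaSubgroupIn ℚ) : dscrDet M ψ p τ = 1 := by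
  rw [dscrDet, MonoidHom.mul_apply, garChi_inertia p hq hqp A hA τ hτ,
    dscrPsiGal_inertia M ψ hq hqM A hA τ hτ, one_mul]

end PsiGal

end Fermat.Agent.DS
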